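import Mathlib
import Fermat.Agent.H28.Cocycle

/-!
# Cocycle calculus with coefficients in an arbitrary abelian group (helper35, P-S16 LB-LIFT)

`zmapA Γ g (φ, β) q = φ (cocyc g q) + (β (g • q) - β q)`, for `φ : Γ → A` a homomorphism and
`β : G ⧸ Γ → A` a function.  This is the analogue, for an arbitrary abelian group `A`, of
`Fermat.Agent.H28.zmap` (which has complex coefficients).
-/

namespace Fermat.Agent.H35

open Fermat.Agent.H28

section Zmap

variable {G : Type*} [Group G] (Γ : Subgroup G) {A : Type*} [AddCommGroup A]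

/-- The cocycle `g ↦ coch φ g + (β ∘ g - β)` attached to a pair `(φ, β)`. -/
noncomputable def zmapA (g : G) (x : (Additive Γ →+ A) × ((G ⧸ Γ) → A)) (q : G ⧸ Γ) : A :=
  coch Γ x.1 g q + (x.2 (g • q) - x.2 q)

lemma zmapA_apply (g : G) (x : (Additive Γ →+ A) × ((G ⧸ Γ) → A)) (q : G ⧸ Γ) :
    zmapA Γ g x q = coch Γ x.1 g q + (x.2 (g • q) - x.2 q) := rfl

lemma zmapA_mul (g h : G) (x : (Additive Γ →+ A) × ((G ⧸ Γ) → A)) (q : G ⧸ Γ) :
    zmapA Γ (g * h) x q = zmapA Γ g x (h • q) + zmapA Γ h x q := by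
  simp only [zmapA_apply, coch_mul, mul_smul]
  abel

lemma zmapA_one (x : (Additive Γ →+ A) × ((G ⧸ Γ) → A)) (q : G ⧸ Γ) : zmapA Γ 1 x q = 0 := by
  simp [zmapA_apply, coch_one]

lemma zmapA_inv (g : G) (x : (Additive Γ →+ A) × ((G ⧸ Γ) → A)) (q : G ⧸ Γ) :
    zmapA Γ g⁻¹ x q = - zmapA Γ g x (g⁻¹ • q) := by
  have h := zmapA_mul Γ g g⁻¹ x q
  rw [mul_inv_cancel, zmapA_one] at h
  exact eq_neg_of_add_eq_zero_right h.symm

lemma zmapA_pow (g : G) (n : ℕ) (x : (Additive Γ →+ A) × ((G ⧸ Γ) → A)) (q : G ⧸ Γ) :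
    zmapA Γ (g ^ n) x q = ∑ i ∈ Finset.range n, zmapA Γ g x (g ^ i • q) := by
  induction n with
  | zero => simp [zmapA_one]
  | succ n ih =>
    rw [pow_succ', zmapA_mul, Finset.sum_range_succ, ih, add_comm]

lemma zmapA_sub (g : G) (x y : (Additive Γ →+ A) × ((G ⧸ Γ) → A)) (q : G ⧸ Γ) :
    zmapA Γ g (x - y) q = zmapA Γ g x q - zmapA Γ g y q := by
  simp only [zmapA_apply, coch, Prod.fst_sub, Prod.snd_sub, AddMonoidHom.sub_apply, Pi.sub_apply]
  abel

/-- The predicate "`φ` vanishes on `Γ ∩ Par`". -/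
def KillsSet (Par : Set G) (φ : Additive Γ →+ A) : Prop :=
  ∀ γ : Γ, (γ : G) ∈ Par → φ (Additive.ofMul γ) = 0

variable {Γ}

lemma zmapA_eq_zero_of_fixed {Par : Set G} (hconj : ∀ g x : G, x ∈ Par → g⁻¹ * x * g ∈ Par)
    {x : (Additive Γ →+ A) × ((G ⧸ Γ) → A)} (hx : KillsSet Γ Par x.1)
    {g : G} (hg : g ∈ Par) {q : G ⧸ Γ} (hq : g • q = q) : zmapA Γ g x q = 0 := by
  rw [zmapA_apply, hq, sub_self, add_zero]
  unfold coch
  apply hx
  rw [coe_cocyc_of_smul_eq Γ hq]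
  exact hconj _ _ hg

lemma zmapA_eq_zero_of_closure {S U : G} (hgen : Subgroup.closure {S, U} = ⊤)
    {x : (Additive Γ →+ A) × ((G ⧸ Γ) → A)} (hS : ∀ q, zmapA Γ S x q = 0)
    (hU : ∀ q, zmapA Γ U x q = 0) (g : G) : ∀ q, zmapA Γ g x q = 0 := by
  have hg : g ∈ Subgroup.closure {S, U} := by rw [hgen]; trivial
  induction hg using Subgroup.closure_induction with
  | mem y hy =>
    rcases hy with rfl | rfl
    · exact hS
    · exact hU
  | one => exact zmapA_one Γ x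
  | mul a b _ _ ha hb =>
    intro q
    rw [zmapA_mul, ha, hb, add_zero]
  | inv a _ ha =>
    intro q
    rw [zmapA_inv, ha, neg_zero]

lemma eq_zero_of_zmapA_eq_zero {x : (Additive Γ →+ A) × ((G ⧸ Γ) → A)}
    (h : ∀ (g : G) (q : G ⧸ Γ), zmapA Γ g x q = 0) (h0 : x.2 ((1 : G) : G ⧸ Γ) = 0) : x = 0 := by
  have hφ : x.1 = 0 := by
    refine AddMonoidHom.ext fun γ => ?_
    obtain ⟨γ, rfl⟩ : ∃ γ' : Γ, Additive.ofMul γ' = γ := ⟨Additive.toMul γ, rfl⟩
    have h1 := h (γ : G) ((1 : G) : G ⧸ Γ)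
    have hfix : (γ : G) • (((1 : G) : G ⧸ Γ)) = ((1 : G) : G ⧸ Γ) := by
      rw [MulAction.Quotient.smul_mk, QuotientGroup.eq]
      simp
    rw [zmapA_apply, hfix, sub_self, add_zero] at h1
    unfold coch at h1
    set s : G := Quotient.out (((1 : G) : G ⧸ Γ)) with hs
    have hsmem : s ∈ Γ := by
      have : ((s : G) : G ⧸ Γ) = ((1 : G) : G ⧸ Γ) := QuotientGroup.out_eq' _
      rw [QuotientGroup.eq] at this
      simpa using Γ.inv_mem this
    have hc : cocyc Γ (γ : G) ((1 : G) : G ⧸ Γ) = (⟨s, hsmem⟩ : Γ)⁻¹ * γ * ⟨s, hsmem⟩ := by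
      apply Subtype.ext
      rw [coe_cocyc_of_smul_eq Γ hfix]
      rfl
    rw [hc, ofMul_mul, ofMul_mul, ofMul_inv, map_add, map_add, map_neg] at h1
    simp only [AddMonoidHom.zero_apply]
    have h2 : x.1 (Additive.ofMul γ) = -x.1 (Additive.ofMul (⟨s, hsmem⟩ : Γ))
        + x.1 (Additive.ofMul γ) + x.1 (Additive.ofMul (⟨s, hsmem⟩ : Γ)) := by abel
    rw [h2, h1]
  have hβ : x.2 = 0 := by
    ext q
    induction q using QuotientGroup.induction_on with
    | H g =>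
      have h1 := h g ((1 : G) : G ⧸ Γ)
      rw [zmapA_apply, hφ] at h1
      have hg : g • (((1 : G) : G ⧸ Γ)) = (g : G ⧸ Γ) := by
        rw [MulAction.Quotient.smul_mk]
        simp
      rw [hg, h0] at h1
      simpa [coch] using h1
  exact Prod.ext hφ hβ

end Zmap

end Fermat.Agent.H35
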