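import Mathlib
import Fermat.Agent.H28.ParabolicBound
import Fermat.Agent.H35.S16LiftZmap

/-!
# Fibre sums and exact orbit sums with coefficients in an abelian group
(helper35, P-S16 LB-LIFT)
-/

set_option autoImplicit false

namespace Fermat.Agent.H35

open Fermat.Agent.H28

section FiberSum

variable {Q O A : Type*} [Fintype Q] [AddCommGroup A]

open scoped Classical in
/-- Sum over the fibres of a map, as a homomorphism of additive groups. -/
noncomputable def fiberSumA (π : Q → O) : (Q → A) →+ (O → A) where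
  toFun f := fun o => ∑ q, if π q = o then f q else 0
  map_zero' := by
    ext o
    simp
  map_add' f g := by
    ext o
    simp only [Pi.add_apply, ← Finset.sum_add_distrib]
    refine Finset.sum_congr rfl fun q _ => ?_
    split_ifs <;> simp

open scoped Classical in
lemma fiberSumA_apply (π : Q → O) (f : Q → A) (o : O) :
    fiberSumA π f o = ∑ q, if π q = o then f q else 0 := rfl

lemma fiberSumA_apply_filter [DecidableEq O] (π : Q → O) (f : Q → A) (o : O) :
    fiberSumA π f o = ∑ q ∈ Finset.univ.filter (fun q => π q = o), f q := by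
  rw [Finset.sum_filter, fiberSumA_apply]
  refine Finset.sum_congr rfl fun q _ => ?_
  split_ifs <;> rfl

lemma fiberSumA_single [DecidableEq Q] [DecidableEq O] (π : Q → O) (q : Q) (a : A) :
    fiberSumA π (Pi.single q a) = Pi.single (π q) a := by
  ext o
  rw [fiberSumA_apply]
  simp only [Pi.single_apply]
  rw [Finset.sum_eq_single q]
  · simp [eq_comm]
  · intro b _ hb
    simp [hb]
  · intro h
    exact absurd (Finset.mem_univ q) h

lemma fiberSumA_comp_perm (π : Q → O) (σ : Equiv.Perm Q) (hσ : ∀ q, π (σ q) = π q)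
    (f : Q → A) : fiberSumA π (fun q => f (σ q)) = fiberSumA π f := by
  classical
  ext o
  rw [fiberSumA_apply, fiberSumA_apply]
  rw [← Equiv.sum_comp σ (fun q => if π q = o then f q else 0)]
  refine Finset.sum_congr rfl fun q _ => ?_
  simp only [hσ]

end FiberSum

section Orbits

variable {G : Type*} [Group G] {Γ : Subgroup G} [Fintype (G ⧸ Γ)] {A : Type*} [AddCommGroup A]

/-- The sum of `f` over the `T`-orbit of `q₀` is the sum of `f (T ^ i • q₀)` over one exact
period. -/
lemma fiberSumA_orbProj (T : G) (f : (G ⧸ Γ) → A) (q₀ : G ⧸ Γ) :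
    fiberSumA (orbProj Γ T) f (orbProj Γ T q₀)
      = ∑ i ∈ Finset.range (Function.minimalPeriod (fun q : G ⧸ Γ => T • q) q₀),
          f (T ^ i • q₀) := by
  classical
  rw [fiberSumA_apply_filter]
  symm
  have hper : q₀ ∈ Function.periodicPts (fun q : G ⧸ Γ => T • q) := by
    obtain ⟨n, hn, hfix⟩ := exists_pow_smul_eq (Γ := Γ) T
    refine Function.mk_mem_periodicPts hn ?_
    show (fun q : G ⧸ Γ => T • q)^[n] q₀ = q₀
    rw [smul_iterate]
    exact hfix q₀
  have hpos := Function.minimalPeriod_pos_of_mem_periodicPts hper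
  refine Finset.sum_nbij (fun i => T ^ i • q₀) ?_ ?_ ?_ ?_
  · intro i _
    simp only [Finset.mem_filter, Finset.mem_univ, true_and]
    exact orbProj_pow_smul T i q₀
  · intro i hi j hj hij
    have hi' : i ∈ Set.Iio (Function.minimalPeriod (fun q : G ⧸ Γ => T • q) q₀) := by
      simpa using hi
    have hj' : j ∈ Set.Iio (Function.minimalPeriod (fun q : G ⧸ Γ => T • q) q₀) := by
      simpa using hj
    refine Function.iterate_injOn_Iio_minimalPeriod hi' hj' ?_
    show (fun q : G ⧸ Γ => T • q)^[i] q₀ = (fun q : G ⧸ Γ => T • q)^[j] q₀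
    rw [smul_iterate, smul_iterate]
    exact hij
  · intro q hq
    simp only [Finset.coe_filter, Finset.mem_univ, true_and, Set.mem_ofPred_eq] at hq
    have hq' : MulAction.orbitRel (Subgroup.zpowers T) (G ⧸ Γ) q q₀ := Quotient.exact' hq
    rw [MulAction.orbitRel_apply] at hq'
    obtain ⟨⟨g, hg⟩, rfl⟩ := hq'
    obtain ⟨k, rfl⟩ := Subgroup.mem_zpowers_iff.mp hg
    have hw : (0 : ℤ) < (Function.minimalPeriod (fun q : G ⧸ Γ => T • q) q₀ : ℤ) := by
      exact_mod_cast hpos
    refine ⟨(k % (Function.minimalPeriod (fun q : G ⧸ Γ => T • q) q₀ : ℤ)).toNat, ?_, ?_⟩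
    · simp only [Finset.coe_range, Set.mem_Iio]
      have h1 := Int.emod_lt_of_pos k hw
      have h2 := Int.emod_nonneg k hw.ne'
      omega
    · show T ^ _ • q₀ = (⟨T ^ k, hg⟩ : Subgroup.zpowers T) • q₀
      have h2 := Int.emod_nonneg k hw.ne'
      rw [← zpow_natCast, Int.toNat_of_nonneg h2]
      exact MulAction.zpow_smul_mod_minimalPeriod T q₀ k
  · intro i _
    rfl

/-- The orbit sums of the cocycle of `T` vanish, if `φ` kills the conjugates of the powers
of `T`. -/
lemma fiberSumA_zmapA_T {Par : Set G} (hconj : ∀ g x : G, x ∈ Par → g⁻¹ * x * g ∈ Par)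
    {T : G} (hT : ∀ n : ℕ, T ^ n ∈ Par)
    {x : (Additive Γ →+ A) × ((G ⧸ Γ) → A)} (hx : KillsSet Γ Par x.1) :
    fiberSumA (orbProj Γ T) (zmapA Γ T x) = 0 := by
  ext o
  induction o using Quotient.inductionOn' with
  | h q₀ =>
    have h1 := fiberSumA_orbProj (Γ := Γ) T (zmapA Γ T x) q₀
    have h2 : (Quotient.mk'' q₀ : MulAction.orbitRel.Quotient (Subgroup.zpowers T) (G ⧸ Γ))
        = orbProj Γ T q₀ := rfl
    rw [h2, h1, ← zmapA_pow]
    refine zmapA_eq_zero_of_fixed hconj hx (hT _) ?_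
    have h3 := Function.isPeriodicPt_minimalPeriod (fun q : G ⧸ Γ => T • q) q₀
    have h4 : (fun q : G ⧸ Γ => T • q)^[Function.minimalPeriod (fun q : G ⧸ Γ => T • q) q₀] q₀
        = q₀ := h3
    rw [smul_iterate] at h4
    exact h4

lemma fiberSumA_zmapA_U_sub_S {Par : Set G} (hconj : ∀ g x : G, x ∈ Par → g⁻¹ * x * g ∈ Par)
    {S T U : G} (hU : U = S * T) (hT : ∀ n : ℕ, T ^ n ∈ Par)
    {x : (Additive Γ →+ A) × ((G ⧸ Γ) → A)} (hx : KillsSet Γ Par x.1) :
    fiberSumA (orbProj Γ T) (zmapA Γ U x - zmapA Γ S x) = 0 := by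
  have h1 : zmapA Γ U x = (fun q => zmapA Γ S x (T • q)) + zmapA Γ T x := by
    ext q
    rw [hU, zmapA_mul]
    rfl
  have h2 : fiberSumA (orbProj Γ T) (fun q => zmapA Γ S x (T • q))
      = fiberSumA (orbProj Γ T) (zmapA Γ S x) :=
    fiberSumA_comp_perm (orbProj Γ T) (MulAction.toPerm T) (fun q => orbProj_smul T q) _
  rw [h1, map_sub, map_add, h2, fiberSumA_zmapA_T hconj hT hx]
  simp

end Orbits

end Fermat.Agent.H35
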