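import Mathlib

/-!
# Functions on a finite set anti-invariant under a permutation of order two or three
(helper35, P-S16 LB-LIFT)

Characteristic-free counting: for an involution `σ` of a finite set `X`, the functions
`f : X → A` with `f + f ∘ σ = 0` that vanish at the fixed points of `σ` are determined by their
values on a set of representatives of the free orbits; similarly for a permutation of order three.
-/

set_option autoImplicit false

namespace Fermat.Agent.H35

section Counting

variable {X : Type*} [Finite X]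

/-- Orbit counting for an involution. -/
lemma two_mul_card_reps_add_card_fixed (σ : X → X) (hσ : ∀ q, σ (σ q) = q)
    (e : X → ℕ) (he : Function.Injective e) :
    2 * Nat.card {q : X // e q < e (σ q)} + Nat.card {q : X // σ q = q} = Nat.card X := by
  classical
  have : Fintype X := Fintype.ofFinite X
  rw [Nat.card_eq_fintype_card, Nat.card_eq_fintype_card, Nat.card_eq_fintype_card,
    Fintype.card_subtype, Fintype.card_subtype]
  have h1 : (Finset.univ.filter (fun q : X => e (σ q) < e q)).card
      = (Finset.univ.filter (fun q : X => e q < e (σ q))).card := by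
    refine Finset.card_nbij' σ σ ?_ ?_ ?_ ?_
    · intro q hq
      simp only [Finset.coe_filter, Finset.mem_univ, true_and, Set.mem_ofPred_eq] at hq ⊢
      rw [hσ]
      exact hq
    · intro q hq
      simp only [Finset.coe_filter, Finset.mem_univ, true_and, Set.mem_ofPred_eq] at hq ⊢
      rw [hσ]
      exact hq
    · intro q _
      exact hσ q
    · intro q _
      exact hσ q
  have h2 : Fintype.card X = ∑ _q : X, 1 := by simp
  rw [h2]
  have h3 : ∀ q : X, (1 : ℕ) = (if e (σ q) < e q then 1 else 0) + (if e q < e (σ q) then 1 else 0)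
      + (if σ q = q then 1 else 0) := by
    intro q
    have h4 : σ q = q ↔ e (σ q) = e q := ⟨fun h => congrArg e h, fun h => he h⟩
    by_cases h5 : σ q = q
    · have h6 := h4.mp h5
      rw [if_pos h5, if_neg (by omega), if_neg (by omega)]
    · have h6 : e (σ q) ≠ e q := fun h => h5 (h4.mpr h)
      rw [if_neg h5]
      rcases Nat.lt_or_gt_of_ne h6 with h7 | h7
      · rw [if_pos h7, if_neg (by omega)]
      · rw [if_neg (by omega), if_pos h7]
  rw [Finset.sum_congr rfl (fun q _ => h3 q), Finset.sum_add_distrib, Finset.sum_add_distrib,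
    ← Finset.card_filter, ← Finset.card_filter, ← Finset.card_filter, h1]
  ring

omit [Finite X] in
lemma s16_order_three_aux (τ : X → X) (hτ : ∀ q, τ (τ (τ q)) = q)
    (e : X → ℕ) (he : Function.Injective e) (q : X) :
    (τ q = q ↔ e (τ q) = e q) ∧ (e (τ (τ q)) = e (τ q) → e (τ q) = e q)
      ∧ (e (τ (τ q)) = e q → e (τ q) = e q) ∧ (e (τ q) = e q → e (τ (τ q)) = e q) := by
  refine ⟨⟨fun h => congrArg e h, fun h => he h⟩, ?_, ?_, ?_⟩
  · intro h
    have h' : τ (τ q) = τ q := he h
    have h'' : τ (τ (τ q)) = τ (τ q) := congrArg τ h'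
    rw [hτ] at h''
    exact congrArg e (h'.symm.trans h''.symm)
  · intro h
    have h' : τ (τ q) = q := he h
    have h'' : τ (τ (τ q)) = τ q := congrArg τ h'
    rw [hτ] at h''
    exact congrArg e h''.symm
  · intro h
    have h' : τ q = q := he h
    rw [h', h']

/-- Orbit counting for a permutation of order three. -/
lemma three_mul_card_reps_add_card_fixed (τ : X → X) (hτ : ∀ q, τ (τ (τ q)) = q)
    (e : X → ℕ) (he : Function.Injective e) :
    3 * Nat.card {q : X // e q < e (τ q) ∧ e q < e (τ (τ q))} + Nat.card {q : X // τ q = q}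
      = Nat.card X := by
  classical
  have : Fintype X := Fintype.ofFinite X
  rw [Nat.card_eq_fintype_card, Nat.card_eq_fintype_card, Nat.card_eq_fintype_card,
    Fintype.card_subtype, Fintype.card_subtype]
  have h1 : (Finset.univ.filter (fun q : X => e (τ q) < e q ∧ e (τ q) < e (τ (τ q)))).card
      = (Finset.univ.filter (fun q : X => e q < e (τ q) ∧ e q < e (τ (τ q)))).card := by
    refine Finset.card_nbij' τ (fun q => τ (τ q)) ?_ ?_ ?_ ?_
    · intro q hq
      simp only [Finset.coe_filter, Finset.mem_univ, true_and, Set.mem_ofPred_eq] at hq ⊢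
      rw [hτ]
      exact ⟨hq.2, hq.1⟩
    · intro q hq
      simp only [Finset.coe_filter, Finset.mem_univ, true_and, Set.mem_ofPred_eq] at hq ⊢
      simp only [hτ]
      exact ⟨hq.2, hq.1⟩
    · intro q _
      exact hτ q
    · intro q _
      show τ (τ (τ q)) = q
      exact hτ q
  have h1' : (Finset.univ.filter (fun q : X => e (τ (τ q)) < e q ∧ e (τ (τ q)) < e (τ q))).card
      = (Finset.univ.filter (fun q : X => e q < e (τ q) ∧ e q < e (τ (τ q)))).card := by
    refine Finset.card_nbij' (fun q => τ (τ q)) τ ?_ ?_ ?_ ?_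
    · intro q hq
      simp only [Finset.coe_filter, Finset.mem_univ, true_and, Set.mem_ofPred_eq] at hq ⊢
      simp only [hτ]
      exact hq
    · intro q hq
      simp only [Finset.coe_filter, Finset.mem_univ, true_and, Set.mem_ofPred_eq] at hq ⊢
      rw [hτ]
      exact hq
    · intro q _
      show τ (τ (τ q)) = q
      exact hτ q
    · intro q _
      exact hτ q
  have h2 : Fintype.card X = ∑ _q : X, 1 := by simp
  rw [h2]
  have h3 : ∀ q : X, (1 : ℕ)
      = (if e q < e (τ q) ∧ e q < e (τ (τ q)) then 1 else 0)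
        + (if e (τ q) < e q ∧ e (τ q) < e (τ (τ q)) then 1 else 0)
        + (if e (τ (τ q)) < e q ∧ e (τ (τ q)) < e (τ q) then 1 else 0)
        + (if τ q = q then 1 else 0) := by
    intro q
    obtain ⟨h4, h5, h6, h7⟩ := s16_order_three_aux τ hτ e he q
    by_cases h8 : τ q = q
    · have h9 := h4.mp h8
      have h10 := h7 h9
      rw [if_pos h8, if_neg (by omega), if_neg (by omega), if_neg (by omega)]
    · have h9 : e (τ q) ≠ e q := fun h => h8 (h4.mpr h)
      have h10 : e (τ (τ q)) ≠ e (τ q) := fun h => h9 (h5 h)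
      have h11 : e (τ (τ q)) ≠ e q := fun h => h9 (h6 h)
      rw [if_neg h8]
      by_cases c1 : e q < e (τ q) ∧ e q < e (τ (τ q))
      · rw [if_pos c1, if_neg (by omega), if_neg (by omega)]
      · by_cases c2 : e (τ q) < e q ∧ e (τ q) < e (τ (τ q))
        · rw [if_neg c1, if_pos c2, if_neg (by omega)]
        · have c3 : e (τ (τ q)) < e q ∧ e (τ (τ q)) < e (τ q) := by omega
          rw [if_neg c1, if_neg c2, if_pos c3]
  rw [Finset.sum_congr rfl (fun q _ => h3 q), Finset.sum_add_distrib, Finset.sum_add_distrib,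
    Finset.sum_add_distrib, ← Finset.card_filter, ← Finset.card_filter, ← Finset.card_filter,
    ← Finset.card_filter, h1, h1']
  ring

variable {A : Type*} [AddCommGroup A]

/-- The functions anti-invariant under an involution and vanishing at its fixed points are
determined by their values on representatives of the free orbits. -/
lemma card_antiinvariant_two_le [Finite A] (σ : X → X) (hσ : ∀ q, σ (σ q) = q)
    (e : X → ℕ) (he : Function.Injective e) :
    Nat.card {f : X → A // ∀ q, f q + f (σ q) = 0 ∧ (σ q = q → f q = 0)}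
      ≤ Nat.card A ^ Nat.card {q : X // e q < e (σ q)} := by
  rw [← Nat.card_fun]
  refine Nat.card_le_card_of_injective
    (fun (f : {f : X → A // ∀ q, f q + f (σ q) = 0 ∧ (σ q = q → f q = 0)})
      (q : {q : X // e q < e (σ q)}) => f.1 q.1) ?_
  intro f g hfg
  apply Subtype.ext
  funext q
  have hR : ∀ r : X, e r < e (σ r) → f.1 r = g.1 r := fun r hr => congrFun hfg ⟨r, hr⟩
  by_cases h5 : σ q = q
  · rw [(f.2 q).2 h5, (g.2 q).2 h5]
  · have h6 : e (σ q) ≠ e q := fun h => h5 (he h)
    rcases Nat.lt_or_gt_of_ne h6 with h7 | h7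
    · have h8 : f.1 (σ q) = g.1 (σ q) := hR (σ q) (by rw [hσ]; exact h7)
      have h9 := (f.2 q).1
      have h10 := (g.2 q).1
      rw [h8] at h9
      exact add_right_cancel (h9.trans h10.symm)
    · exact hR q h7

/-- The functions killed by `1 + τ + τ²` for a permutation `τ` of order three and vanishing at
its fixed points are determined by their values on representatives of the free orbits and
their images. -/
lemma card_antiinvariant_three_le [Finite A] (τ : X → X) (hτ : ∀ q, τ (τ (τ q)) = q)
    (e : X → ℕ) (he : Function.Injective e) :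
    Nat.card {f : X → A // ∀ q, f q + f (τ q) + f (τ (τ q)) = 0 ∧ (τ q = q → f q = 0)}
      ≤ Nat.card A ^ (2 * Nat.card {q : X // e q < e (τ q) ∧ e q < e (τ (τ q))}) := by
  have hcard : Nat.card (({q : X // e q < e (τ q) ∧ e q < e (τ (τ q))} → A)
      × ({q : X // e q < e (τ q) ∧ e q < e (τ (τ q))} → A))
      = Nat.card A ^ (2 * Nat.card {q : X // e q < e (τ q) ∧ e q < e (τ (τ q))}) := by
    rw [Nat.card_prod, Nat.card_fun, two_mul, pow_add]
  rw [← hcard]
  refine Nat.card_le_card_of_injective
    (fun (f : {f : X → A // ∀ q, f q + f (τ q) + f (τ (τ q)) = 0 ∧ (τ q = q → f q = 0)}) =>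
      ((fun (q : {q : X // e q < e (τ q) ∧ e q < e (τ (τ q))}) => f.1 q.1),
       (fun (q : {q : X // e q < e (τ q) ∧ e q < e (τ (τ q))}) => f.1 (τ q.1)))) ?_
  intro f g hfg
  apply Subtype.ext
  funext q
  have hR : ∀ r : X, e r < e (τ r) ∧ e r < e (τ (τ r)) → f.1 r = g.1 r :=
    fun r hr => congrFun (congrArg Prod.fst hfg) ⟨r, hr⟩
  have hR' : ∀ r : X, e r < e (τ r) ∧ e r < e (τ (τ r)) → f.1 (τ r) = g.1 (τ r) :=
    fun r hr => congrFun (congrArg Prod.snd hfg) ⟨r, hr⟩
  have hR'' : ∀ r : X, e r < e (τ r) ∧ e r < e (τ (τ r)) → f.1 (τ (τ r)) = g.1 (τ (τ r)) := by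
    intro r hr
    have h9 := (f.2 r).1
    have h10 := (g.2 r).1
    rw [hR r hr, hR' r hr] at h9
    exact add_left_cancel (h9.trans h10.symm)
  obtain ⟨h4, h5, h6, -⟩ := s16_order_three_aux τ hτ e he q
  by_cases h8 : τ q = q
  · rw [(f.2 q).2 h8, (g.2 q).2 h8]
  · have h9 : e (τ q) ≠ e q := fun h => h8 (h4.mpr h)
    have h10 : e (τ (τ q)) ≠ e (τ q) := fun h => h9 (h5 h)
    have h11 : e (τ (τ q)) ≠ e q := fun h => h9 (h6 h)
    by_cases c1 : e q < e (τ q) ∧ e q < e (τ (τ q))
    · exact hR q c1
    · by_cases c2 : e (τ q) < e q ∧ e (τ q) < e (τ (τ q))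
      · have h12 := hR'' (τ q) (by rw [hτ]; exact ⟨c2.2, c2.1⟩)
        rwa [hτ] at h12
      · have c3 : e (τ (τ q)) < e q ∧ e (τ (τ q)) < e (τ q) := by omega
        have h12 := hR' (τ (τ q)) (by simp only [hτ]; exact c3)
        rwa [hτ] at h12

end Counting

section FirstIso

/-- A counting form of the first isomorphism theorem. -/
lemma card_mul_card_le_of_surjective {W Y Z : Type*} [AddCommGroup Y] [AddCommGroup Z]
    [Finite Y] (Λ : Y →+ Z) (hΛ : Function.Surjective Λ) (J : W → Y)
    (hJ : Function.Injective J) (hΛJ : ∀ w, Λ (J w) = 0) :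
    Nat.card W * Nat.card Z ≤ Nat.card Y := by
  rw [← Nat.card_prod]
  refine Nat.card_le_card_of_injective
    (fun x : W × Z => J x.1 + Function.surjInv hΛ x.2) ?_
  intro x y hxy
  have h1 := congrArg Λ hxy
  simp only [map_add, hΛJ, zero_add, Function.surjInv_eq hΛ] at h1
  have h2 : J x.1 = J y.1 := by
    have h3 : J x.1 + Function.surjInv hΛ x.2 = J y.1 + Function.surjInv hΛ y.2 := hxy
    rw [h1] at h3
    exact add_right_cancel h3
  exact Prod.ext (hJ h2) h1

end FirstIso

end Fermat.Agent.H35
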