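import Mathlib
import Fermat.Agent.H35.S16LiftOrbit
import Fermat.Agent.H35.S16LiftPerm

/-!
# Counting homomorphisms `Γ → A` that kill parabolic and elliptic elements
(helper35, P-S16 LB-LIFT)

Abstract setting as in `Fermat.Agent.H28.parabolic_bound`: `G` is generated by `S` and
`U = S * T`, `Γ` has finite index, `Par` and `Ell` are conjugation-invariant sets with
`S * S, U * U * U, T ^ n ∈ Par` and `S, U ∈ Ell`.  For a finite abelian group `A` the number of
homomorphisms `Γ → A` vanishing on `Par` and `Ell` is at most `|A| ^ r`, where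
`6 r + 3 #Fix(S) + 4 #Fix(U) + 6 #(T-orbits) ≥ [G : Γ] + 12`.
The argument is characteristic-free (no division).
-/

set_option autoImplicit false

namespace Fermat.Agent.H35

open Fermat.Agent.H28

section Range

variable {G : Type*} [Group G] {Γ : Subgroup G} {A : Type*} [AddCommGroup A]

/-- Functions `f` with `f + f ∘ S = 0` vanishing at the fixed points of `S`. -/
def kerAA (Γ : Subgroup G) (S : G) (A : Type*) [AddCommGroup A] :
    AddSubgroup ((G ⧸ Γ) → A) where
  carrier := {f | ∀ q, f q + f (S • q) = 0 ∧ (S • q = q → f q = 0)}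
  zero_mem' := by
    intro q
    simp
  add_mem' := by
    intro f g hf hg q
    refine ⟨?_, fun h => ?_⟩
    · have h1 := (hf q).1
      have h2 := (hg q).1
      simp only [Pi.add_apply]
      have h3 : f q + g q + (f (S • q) + g (S • q)) = (f q + f (S • q)) + (g q + g (S • q)) := by
        abel
      rw [h3, h1, h2, add_zero]
    · simp only [Pi.add_apply]
      rw [(hf q).2 h, (hg q).2 h, add_zero]
  neg_mem' := by
    intro f hf q
    refine ⟨?_, fun h => ?_⟩
    · have h1 := (hf q).1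
      simp only [Pi.neg_apply]
      rw [← neg_add, h1, neg_zero]
    · simp only [Pi.neg_apply]
      rw [(hf q).2 h, neg_zero]

/-- Functions `f` with `f + f ∘ U + f ∘ U ∘ U = 0` vanishing at the fixed points of `U`. -/
def kerBB (Γ : Subgroup G) (U : G) (A : Type*) [AddCommGroup A] :
    AddSubgroup ((G ⧸ Γ) → A) where
  carrier := {f | ∀ q, f q + f (U • q) + f (U • U • q) = 0 ∧ (U • q = q → f q = 0)}
  zero_mem' := by
    intro q
    simp
  add_mem' := by
    intro f g hf hg q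
    refine ⟨?_, fun h => ?_⟩
    · have h1 := (hf q).1
      have h2 := (hg q).1
      simp only [Pi.add_apply]
      have h3 : f q + g q + (f (U • q) + g (U • q)) + (f (U • U • q) + g (U • U • q))
          = (f q + f (U • q) + f (U • U • q)) + (g q + g (U • q) + g (U • U • q)) := by
        abel
      rw [h3, h1, h2, add_zero]
    · simp only [Pi.add_apply]
      rw [(hf q).2 h, (hg q).2 h, add_zero]
  neg_mem' := by
    intro f hf q
    refine ⟨?_, fun h => ?_⟩
    · have h1 := (hf q).1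
      simp only [Pi.neg_apply]
      have h3 : -f q + -f (U • q) + -f (U • U • q) = -(f q + f (U • q) + f (U • U • q)) := by
        abel
      rw [h3, h1, neg_zero]
    · simp only [Pi.neg_apply]
      rw [(hf q).2 h, neg_zero]

lemma mem_kerAA_iff {S : G} {f : (G ⧸ Γ) → A} :
    f ∈ kerAA Γ S A ↔ ∀ q, f q + f (S • q) = 0 ∧ (S • q = q → f q = 0) := Iff.rfl

lemma mem_kerBB_iff {U : G} {f : (G ⧸ Γ) → A} :
    f ∈ kerBB Γ U A ↔ ∀ q, f q + f (U • q) + f (U • U • q) = 0 ∧ (U • q = q → f q = 0) :=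
  Iff.rfl

lemma sub_comp_mem_kerAA {S : G} (hS2 : ∀ q : G ⧸ Γ, S • S • q = q) (f : (G ⧸ Γ) → A) :
    (f - fun q => f (S • q)) ∈ kerAA Γ S A := by
  rw [mem_kerAA_iff]
  intro q
  refine ⟨?_, fun h => ?_⟩
  · simp only [Pi.sub_apply, hS2]
    abel
  · simp only [Pi.sub_apply, h, sub_self]

lemma sub_comp_mem_kerBB {U : G} (hU3 : ∀ q : G ⧸ Γ, U • U • U • q = q) (f : (G ⧸ Γ) → A) :
    (f - fun q => f (U • q)) ∈ kerBB Γ U A := by
  rw [mem_kerBB_iff]
  intro q
  refine ⟨?_, fun h => ?_⟩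
  · simp only [Pi.sub_apply, hU3]
    abel
  · simp only [Pi.sub_apply, h, sub_self]

variable [Fintype (G ⧸ Γ)]

open scoped Classical in
/-- The map `(a, b, x, y) ↦ (orbit sums of b - a) + x • δ_{o₀}`. -/
noncomputable def lamA (Γ : Subgroup G) [Fintype (G ⧸ Γ)] (S T U : G) (A : Type*)
    [AddCommGroup A] :
    ((kerAA Γ S A × kerBB Γ U A) × (A × A)) →+
      (MulAction.orbitRel.Quotient (Subgroup.zpowers T) (G ⧸ Γ) → A) where
  toFun y := fiberSumA (orbProj Γ T) ((y.1.2 : (G ⧸ Γ) → A) - (y.1.1 : (G ⧸ Γ) → A))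
    + Pi.single (orbProj Γ T ((1 : G) : G ⧸ Γ)) y.2.1
  map_zero' := by
    simp
  map_add' y z := by
    simp only [Prod.fst_add, Prod.snd_add, AddSubgroup.coe_add, Pi.single_add, map_add,
      map_sub]
    abel

open scoped Classical in
lemma lamA_apply (S T U : G) (y : (kerAA Γ S A × kerBB Γ U A) × (A × A)) :
    lamA Γ S T U A y
      = fiberSumA (orbProj Γ T) ((y.1.2 : (G ⧸ Γ) → A) - (y.1.1 : (G ⧸ Γ) → A))
        + Pi.single (orbProj Γ T ((1 : G) : G ⧸ Γ)) y.2.1 := rfl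

lemma fiberSumA_sub_comp_mem_range {S T U : G} (hgen : Subgroup.closure {S, U} = ⊤)
    (hS2 : ∀ q : G ⧸ Γ, S • S • q = q) (hU3 : ∀ q : G ⧸ Γ, U • U • U • q = q)
    (g : G) : ∀ f : (G ⧸ Γ) → A,
      fiberSumA (orbProj Γ T) (f - fun q => f (g • q)) ∈ (lamA Γ S T U A).range := by
  classical
  have hg : g ∈ Subgroup.closure {S, U} := by rw [hgen]; trivial
  induction hg using Subgroup.closure_induction with
  | mem y hy =>
    intro f
    rcases hy with rfl | rfl
    · refine ⟨((-⟨_, sub_comp_mem_kerAA hS2 f⟩, 0), (0, 0)), ?_⟩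
      rw [lamA_apply]
      simp
    · refine ⟨((0, ⟨_, sub_comp_mem_kerBB hU3 f⟩), (0, 0)), ?_⟩
      rw [lamA_apply]
      simp
  | one =>
    intro f
    have : (f - fun q : G ⧸ Γ => f ((1 : G) • q)) = 0 := by
      ext q; simp
    rw [this, map_zero]
    exact AddSubgroup.zero_mem _
  | mul a b _ _ ha hb =>
    intro f
    have : (f - fun q : G ⧸ Γ => f ((a * b) • q))
        = (f - fun q : G ⧸ Γ => f (a • q))
          + ((fun q : G ⧸ Γ => f (a • q)) - fun q : G ⧸ Γ => f (a • b • q)) := by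
      ext q; simp [mul_smul]
    rw [this, map_add]
    exact AddSubgroup.add_mem _ (ha f) (hb _)
  | inv a _ ha =>
    intro f
    have : (f - fun q : G ⧸ Γ => f (a⁻¹ • q))
        = - ((fun q : G ⧸ Γ => f (a⁻¹ • q)) - fun q : G ⧸ Γ => f (a⁻¹ • a • q)) := by
      ext q; simp
    rw [this, map_neg]
    exact AddSubgroup.neg_mem _ (ha _)

lemma lamA_surjective {S T U : G} (hgen : Subgroup.closure {S, U} = ⊤)
    (hS2 : ∀ q : G ⧸ Γ, S • S • q = q) (hU3 : ∀ q : G ⧸ Γ, U • U • U • q = q) :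
    Function.Surjective (lamA Γ S T U A) := by
  classical
  have : Finite (MulAction.orbitRel.Quotient (Subgroup.zpowers T) (G ⧸ Γ)) :=
    Quotient.finite _
  have : Fintype (MulAction.orbitRel.Quotient (Subgroup.zpowers T) (G ⧸ Γ)) :=
    Fintype.ofFinite _
  rw [← AddMonoidHom.range_eq_top, eq_top_iff]
  intro v _
  have hbase : ∀ x : A, (Pi.single (orbProj Γ T ((1 : G) : G ⧸ Γ)) x :
      MulAction.orbitRel.Quotient (Subgroup.zpowers T) (G ⧸ Γ) → A)
        ∈ (lamA Γ S T U A).range := by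
    intro x
    refine ⟨((0, 0), (x, 0)), ?_⟩
    rw [lamA_apply]
    simp
  have hsingle : ∀ (o : MulAction.orbitRel.Quotient (Subgroup.zpowers T) (G ⧸ Γ)) (x : A),
      (Pi.single o x : MulAction.orbitRel.Quotient (Subgroup.zpowers T) (G ⧸ Γ) → A)
        ∈ (lamA Γ S T U A).range := by
    intro o x
    induction o using Quotient.inductionOn' with
    | h q =>
      induction q using QuotientGroup.induction_on with
      | H g =>
        have h1 : (Pi.single ((g : G) : G ⧸ Γ) x : (G ⧸ Γ) → A)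
            = fun r : G ⧸ Γ => (Pi.single ((1 : G) : G ⧸ Γ) x : (G ⧸ Γ) → A) (g⁻¹ • r) := by
          ext r
          simp only [Pi.single_apply]
          have : (g⁻¹ • r = ((1 : G) : G ⧸ Γ)) ↔ r = ((g : G) : G ⧸ Γ) := by
            rw [inv_smul_eq_iff, MulAction.Quotient.smul_mk]
            simp
          simp only [this]
        have h2 : (Pi.single (Quotient.mk'' ((g : G) : G ⧸ Γ)) x :
            MulAction.orbitRel.Quotient (Subgroup.zpowers T) (G ⧸ Γ) → A)
            = fiberSumA (orbProj Γ T) (Pi.single ((g : G) : G ⧸ Γ) x) := by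
          rw [fiberSumA_single]
          rfl
        rw [h2, h1]
        have h3 := fiberSumA_sub_comp_mem_range (T := T) (A := A) hgen hS2 hU3 g⁻¹
          (Pi.single ((1 : G) : G ⧸ Γ) x)
        rw [map_sub, fiberSumA_single] at h3
        have h4 : fiberSumA (orbProj Γ T)
            (fun r : G ⧸ Γ => (Pi.single ((1 : G) : G ⧸ Γ) x : (G ⧸ Γ) → A) (g⁻¹ • r))
            = - (Pi.single (orbProj Γ T ((1 : G) : G ⧸ Γ)) x
                  - fiberSumA (orbProj Γ T)
                    (fun r : G ⧸ Γ => (Pi.single ((1 : G) : G ⧸ Γ) x : (G ⧸ Γ) → A) (g⁻¹ • r)))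
              + Pi.single (orbProj Γ T ((1 : G) : G ⧸ Γ)) x := by
          abel
        rw [h4]
        exact AddSubgroup.add_mem _ (AddSubgroup.neg_mem _ h3) (hbase x)
  have hv : v = ∑ o, (Pi.single o (v o) :
      MulAction.orbitRel.Quotient (Subgroup.zpowers T) (G ⧸ Γ) → A) :=
    (Finset.univ_sum_single v).symm
  rw [hv]
  exact AddSubgroup.sum_mem _ fun o _ => hsingle o (v o)

end Range

section MainTheorem

variable {G : Type*} [Group G]

/-- **Abstract counting bound** for the number of homomorphisms `Γ → A` killing the parabolic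
and the elliptic elements. -/
theorem card_parabolic_elliptic_le (Γ : Subgroup G) [Finite (G ⧸ Γ)]
    (A : Type*) [AddCommGroup A] [Finite A]
    (S T U : G) (hU : U = S * T) (hgen : Subgroup.closure {S, U} = ⊤)
    (Par Ell : Set G) (hconjP : ∀ g x : G, x ∈ Par → g⁻¹ * x * g ∈ Par)
    (hconjE : ∀ g x : G, x ∈ Ell → g⁻¹ * x * g ∈ Ell)
    (hS : S * S ∈ Par) (hUU : U * U * U ∈ Par) (hT : ∀ n : ℕ, T ^ n ∈ Par)
    (hSE : S ∈ Ell) (hUE : U ∈ Ell)
    (hS2 : ∀ q : G ⧸ Γ, S • S • q = q) (hU3 : ∀ q : G ⧸ Γ, U • U • U • q = q)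
    (r : ℕ)
    (hr : Nat.card (G ⧸ Γ) + 12 ≤ 6 * r + 3 * Nat.card {q : G ⧸ Γ // S • q = q}
      + 4 * Nat.card {q : G ⧸ Γ // U • q = q}
      + 6 * Nat.card (MulAction.orbitRel.Quotient (Subgroup.zpowers T) (G ⧸ Γ))) :
    Finite {φ : Additive Γ →+ A // KillsSet Γ Par φ ∧ KillsSet Γ Ell φ} ∧
    Nat.card {φ : Additive Γ →+ A // KillsSet Γ Par φ ∧ KillsSet Γ Ell φ} ≤ Nat.card A ^ r := by
  classical
  have : Fintype (G ⧸ Γ) := Fintype.ofFinite _
  have : Finite (MulAction.orbitRel.Quotient (Subgroup.zpowers T) (G ⧸ Γ)) :=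
    Quotient.finite _
  -- the injection
  have hA : ∀ (φ : {φ : Additive Γ →+ A // KillsSet Γ Par φ ∧ KillsSet Γ Ell φ})
      (β : (G ⧸ Γ) → A), zmapA Γ S (φ.1, β) ∈ kerAA Γ S A := by
    intro φ β
    rw [mem_kerAA_iff]
    intro q
    refine ⟨?_, fun h => ?_⟩
    · have h1 := zmapA_mul Γ S S (φ.1, β) q
      rw [zmapA_eq_zero_of_fixed (x := (φ.1, β)) hconjP φ.2.1 hS
        (by rw [mul_smul]; exact hS2 q)] at h1
      rw [add_comm]
      exact h1.symm
    · exact zmapA_eq_zero_of_fixed (x := (φ.1, β)) hconjE φ.2.2 hSE h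
  have hB : ∀ (φ : {φ : Additive Γ →+ A // KillsSet Γ Par φ ∧ KillsSet Γ Ell φ})
      (β : (G ⧸ Γ) → A), zmapA Γ U (φ.1, β) ∈ kerBB Γ U A := by
    intro φ β
    rw [mem_kerBB_iff]
    intro q
    refine ⟨?_, fun h => ?_⟩
    · have h1 := zmapA_mul Γ (U * U) U (φ.1, β) q
      rw [zmapA_eq_zero_of_fixed (x := (φ.1, β)) hconjP φ.2.1 hUU
        (by rw [mul_smul, mul_smul]; exact hU3 q), zmapA_mul] at h1
      rw [h1]
      abel
    · exact zmapA_eq_zero_of_fixed (x := (φ.1, β)) hconjE φ.2.2 hUE h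
  let J : ({φ : Additive Γ →+ A // KillsSet Γ Par φ ∧ KillsSet Γ Ell φ} × ((G ⧸ Γ) → A))
      → ((kerAA Γ S A × kerBB Γ U A) × (A × A)) :=
    fun w => ((⟨zmapA Γ S (w.1.1, w.2), hA w.1 w.2⟩, ⟨zmapA Γ U (w.1.1, w.2), hB w.1 w.2⟩),
      ((0 : A), w.2 ((1 : G) : G ⧸ Γ)))
  have hJ : Function.Injective J := by
    intro w w' hww
    have h1 : zmapA Γ S (w.1.1, w.2) = zmapA Γ S (w'.1.1, w'.2) :=
      congrArg (fun y : (kerAA Γ S A × kerBB Γ U A) × (A × A) => (y.1.1 : (G ⧸ Γ) → A)) hww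
    have h2 : zmapA Γ U (w.1.1, w.2) = zmapA Γ U (w'.1.1, w'.2) :=
      congrArg (fun y : (kerAA Γ S A × kerBB Γ U A) × (A × A) => (y.1.2 : (G ⧸ Γ) → A)) hww
    have h3 : w.2 ((1 : G) : G ⧸ Γ) = w'.2 ((1 : G) : G ⧸ Γ) :=
      congrArg (fun y : (kerAA Γ S A × kerBB Γ U A) × (A × A) => y.2.2) hww
    have h4 : ((w.1.1, w.2) - (w'.1.1, w'.2) : (Additive Γ →+ A) × ((G ⧸ Γ) → A)) = 0 := by
      refine eq_zero_of_zmapA_eq_zero (zmapA_eq_zero_of_closure hgen ?_ ?_) ?_
      · intro q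
        rw [zmapA_sub, h1, sub_self]
      · intro q
        rw [zmapA_sub, h2, sub_self]
      · show w.2 ((1 : G) : G ⧸ Γ) - w'.2 ((1 : G) : G ⧸ Γ) = 0
        rw [h3, sub_self]
    have h5 : ((w.1.1, w.2) : (Additive Γ →+ A) × ((G ⧸ Γ) → A)) = (w'.1.1, w'.2) :=
      sub_eq_zero.mp h4
    have h6 : (w.1 : Additive Γ →+ A) = w'.1 := (Prod.mk.inj h5).1
    have h7 : w.2 = w'.2 := (Prod.mk.inj h5).2
    exact Prod.ext (Subtype.ext h6) h7
  have hΛJ : ∀ w, lamA Γ S T U A (J w) = 0 := by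
    intro w
    rw [lamA_apply]
    have h1 := fiberSumA_zmapA_U_sub_S (Γ := Γ) (x := (w.1.1, w.2)) hconjP hU hT w.1.2.1
    show fiberSumA (orbProj Γ T) (zmapA Γ U (w.1.1, w.2) - zmapA Γ S (w.1.1, w.2))
      + Pi.single (orbProj Γ T ((1 : G) : G ⧸ Γ)) (0 : A) = 0
    rw [h1, Pi.single_zero, add_zero]
  have hfinW : Finite ({φ : Additive Γ →+ A // KillsSet Γ Par φ ∧ KillsSet Γ Ell φ}
      × ((G ⧸ Γ) → A)) := Finite.of_injective J hJ
  have hfinP : Finite {φ : Additive Γ →+ A // KillsSet Γ Par φ ∧ KillsSet Γ Ell φ} :=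
    Finite.of_injective
      (fun φ : {φ : Additive Γ →+ A // KillsSet Γ Par φ ∧ KillsSet Γ Ell φ} =>
        ((φ, 0) : {φ : Additive Γ →+ A // KillsSet Γ Par φ ∧ KillsSet Γ Ell φ}
          × ((G ⧸ Γ) → A)))
      (fun a b hab => congrArg Prod.fst hab)
  refine ⟨hfinP, ?_⟩
  have key := card_mul_card_le_of_surjective (lamA Γ S T U A)
    (lamA_surjective hgen hS2 hU3) J hJ hΛJ
  rw [Nat.card_prod, Nat.card_prod, Nat.card_prod, Nat.card_prod, Nat.card_fun, Nat.card_fun]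
    at key
  -- bounds for the two kernels
  let e : (G ⧸ Γ) → ℕ := fun q => (Fintype.equivFin (G ⧸ Γ) q : ℕ)
  have he : Function.Injective e := by
    intro a b hab
    exact (Fintype.equivFin (G ⧸ Γ)).injective (Fin.ext hab)
  have hKA : Nat.card (kerAA Γ S A)
      ≤ Nat.card A ^ Nat.card {q : G ⧸ Γ // e q < e (S • q)} :=
    card_antiinvariant_two_le (A := A) (fun q : G ⧸ Γ => S • q) hS2 e he
  have hKB : Nat.card (kerBB Γ U A)
      ≤ Nat.card A ^ (2 * Nat.card {q : G ⧸ Γ // e q < e (U • q) ∧ e q < e (U • U • q)}) :=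
    card_antiinvariant_three_le (A := A) (fun q : G ⧸ Γ => U • q) hU3 e he
  have hcA := two_mul_card_reps_add_card_fixed (fun q : G ⧸ Γ => S • q) hS2 e he
  have hcB := three_mul_card_reps_add_card_fixed (fun q : G ⧸ Γ => U • q) hU3 e he
  set a := Nat.card A with ha
  set μ := Nat.card (G ⧸ Γ) with hμ
  set c := Nat.card (MulAction.orbitRel.Quotient (Subgroup.zpowers T) (G ⧸ Γ)) with hc
  set rA := Nat.card {q : G ⧸ Γ // e q < e (S • q)} with hrA
  set rB := Nat.card {q : G ⧸ Γ // e q < e (U • q) ∧ e q < e (U • U • q)} with hrB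
  set P := Nat.card {φ : Additive Γ →+ A // KillsSet Γ Par φ ∧ KillsSet Γ Ell φ} with hP
  have hapos : 0 < a := Nat.card_pos
  have h1 : P * a ^ μ * a ^ c ≤ a ^ rA * a ^ (2 * rB) * (a * a) :=
    key.trans (Nat.mul_le_mul (Nat.mul_le_mul hKA hKB) le_rfl)
  have h2 : a ^ rA * a ^ (2 * rB) * (a * a) = a ^ (rA + 2 * rB + 2) := by
    rw [pow_add, pow_add, pow_two]
  have h3 : rA + 2 * rB + 2 ≤ μ + c + r := by omega
  have h4 : P * a ^ (μ + c) ≤ a ^ (μ + c) * a ^ r := by
    calc P * a ^ (μ + c) = P * a ^ μ * a ^ c := by rw [pow_add, mul_assoc]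
      _ ≤ a ^ (rA + 2 * rB + 2) := by rw [← h2]; exact h1
      _ ≤ a ^ (μ + c + r) := Nat.pow_le_pow_right hapos h3
      _ = a ^ (μ + c) * a ^ r := by rw [pow_add]
  rw [mul_comm] at h4
  exact Nat.le_of_mul_le_mul_left h4 (pow_pos hapos _)

end MainTheorem

end Fermat.Agent.H35
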