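import Mathlib
import Fermat.Agent.H28.S21Glue
import Fermat.Agent.H31.PeriodInjective
import Fermat.Agent.H63.S21A
import Fermat.Agent.H19.Assembly

/-!
# The exact rank of the parabolic homomorphisms of `Γ₀(N)` (helper35, P-S16 LB-LIFT)

`6 dim_ℂ Hom_par(Γ₀(N), ℂ) + 3 ν₂ + 4 ν₃ + 6 c = ψ(N) + 12`, from Eichler-Shimura (S21) and the
dimension formula (S20).
-/

set_option autoImplicit false

namespace Fermat.Agent.H35

open CongruenceSubgroup MatrixGroups ModularCurve Module

/-- Eichler-Shimura at level `N` (same proof as S21). -/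
theorem s16_eichlerShimura (N : ℕ) [NeZero N] :
    Function.Injective (ModularCurve.periodHomPair N)
      ∧ LinearMap.range (ModularCurve.periodHomPair N)
          = ModularCurve.Period.parabolicHoms ℂ (CongruenceSubgroup.Gamma0 N) ℂ :=
  Fermat.Agent.H28.eichlerShimura_of N
    (Fermat.Agent.H31.injective_periodHomPair N
      (fun f => Fermat.Agent.H63.exists_hasEquivariantPrimitive N f))
    (Fermat.Agent.H19.dim_formula N)

/-- The rank of the parabolic homomorphisms is `2 * genusFormula N`. -/
theorem s16_finrank_parabolicHoms (N : ℕ) [NeZero N] :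
    (finrank ℂ (ModularCurve.Period.parabolicHoms ℂ (Gamma0 N) ℂ) : ℚ) = 2 * genusFormula N := by
  obtain ⟨hinj, hrange⟩ := s16_eichlerShimura N
  have hdim := Fermat.Agent.H19.dim_formula N
  obtain ⟨hfin, -⟩ := Fermat.Agent.H28.parabolicHoms_bound N
  have hfinR : Module.Finite ℂ (LinearMap.range (ModularCurve.periodHomPair N)) := by
    rw [hrange]
    exact hfin
  have hfinX : Module.Finite ℂ
      (CuspForm (CongruenceSubgroup.Gamma0 N) 2 × CuspForm (CongruenceSubgroup.Gamma0 N) 2) :=
    Module.Finite.of_injective (ModularCurve.periodHomPair N).rangeRestrict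
      (by
        intro a b hab
        apply hinj
        exact congrArg Subtype.val hab)
  have hfinS : Module.Finite ℂ (CuspForm (CongruenceSubgroup.Gamma0 N) 2) :=
    Module.Finite.of_injective
      (LinearMap.inl ℂ (CuspForm (CongruenceSubgroup.Gamma0 N) 2)
        (CuspForm (CongruenceSubgroup.Gamma0 N) 2)) LinearMap.inl_injective
  rw [← hrange, LinearMap.finrank_range_of_inj hinj, Module.finrank_prod, ← hdim]
  push_cast
  ring

/-- The exact numerical identity for the rank of the parabolic homomorphisms. -/
theorem s16_rank_identity (N : ℕ) [NeZero N] :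
    6 * finrank ℂ (ModularCurve.Period.parabolicHoms ℂ (Gamma0 N) ℂ)
      + 3 * nuTwo N + 4 * nuThree N + 6 * cuspCount N = dedekindPsi N + 12 := by
  have h := s16_finrank_parabolicHoms N
  unfold genusFormula at h
  have h' : (6 * finrank ℂ (ModularCurve.Period.parabolicHoms ℂ (Gamma0 N) ℂ)
      + 3 * nuTwo N + 4 * nuThree N + 6 * cuspCount N : ℚ) = dedekindPsi N + 12 := by
    rw [h]
    ring
  exact_mod_cast h'

end Fermat.Agent.H35
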