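import Mathlib
import Fermat.Agent.H35.S16LiftCount
import Fermat.Agent.H35.S16LiftRank
import Fermat.Agent.H63.S16LB.Interfaces

/-!
# Counting parabolic, elliptic-trivial homomorphisms `Γ₀(N) → A` (helper35, P-S16 LB-LIFT)

For a finite abelian group `A` there are at most `|A| ^ r` homomorphisms `Γ₀(N) → A` killing the
parabolic and elliptic elements, where `r = dim_ℂ Hom_par(Γ₀(N), ℂ)`.
-/

set_option autoImplicit false

namespace Fermat.Agent.H35

open CongruenceSubgroup MatrixGroups ModularCurve Module Fermat.Agent.H28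

/-- The set of elements of `SL(2, ℤ)` with trace `0`, `1` or `-1`. -/
def ellSet : Set SL(2, ℤ) :=
  {g | (g : Matrix (Fin 2) (Fin 2) ℤ).trace = 0 ∨ (g : Matrix (Fin 2) (Fin 2) ℤ).trace = 1
    ∨ (g : Matrix (Fin 2) (Fin 2) ℤ).trace = -1}

lemma mem_ellSet_iff (g : SL(2, ℤ)) :
    g ∈ ellSet ↔ ((g : Matrix (Fin 2) (Fin 2) ℤ).trace = 0
      ∨ (g : Matrix (Fin 2) (Fin 2) ℤ).trace = 1
      ∨ (g : Matrix (Fin 2) (Fin 2) ℤ).trace = -1) := Iff.rfl

lemma ellSet_conj (g x : SL(2, ℤ)) (hx : x ∈ ellSet) : g⁻¹ * x * g ∈ ellSet := by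
  rw [mem_ellSet_iff] at hx ⊢
  have : ((g⁻¹ * x * g : SL(2, ℤ)) : Matrix (Fin 2) (Fin 2) ℤ).trace
      = (x : Matrix (Fin 2) (Fin 2) ℤ).trace := by
    rw [Matrix.SpecialLinearGroup.coe_mul, Matrix.SpecialLinearGroup.coe_mul,
      Matrix.trace_mul_cycle, ← Matrix.SpecialLinearGroup.coe_mul, mul_inv_cancel,
      Matrix.SpecialLinearGroup.coe_one, one_mul]
  rw [this]
  exact hx

lemma S_mem_ellSet : ModularGroup.S ∈ ellSet := by
  rw [mem_ellSet_iff]
  left
  decide

lemma ST_mem_ellSet : ModularGroup.S * ModularGroup.T ∈ ellSet := by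
  rw [mem_ellSet_iff]
  right
  left
  decide

/-- **Counting bound for `Γ₀(N)`**, any finite coefficient group. -/
theorem card_gamma0_parabolic_elliptic_le (N : ℕ) [NeZero N]
    (A : Type*) [AddCommGroup A] [Finite A] :
    Finite {φ : Additive (Gamma0 N) →+ A //
        ModularCurve.Period.IsParabolicHom (Gamma0 N) φ ∧ Fermat.Agent.H63.KillsEll N φ} ∧
    Nat.card {φ : Additive (Gamma0 N) →+ A //
        ModularCurve.Period.IsParabolicHom (Gamma0 N) φ ∧ Fermat.Agent.H63.KillsEll N φ}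
      ≤ Nat.card A ^ finrank ℂ (ModularCurve.Period.parabolicHoms ℂ (Gamma0 N) ℂ) := by
  have hrank := s16_rank_identity N
  have hidx : Nat.card (SL(2, ℤ) ⧸ Gamma0 N) = dedekindPsi N :=
    Fermat.Agent.H57.index_Gamma0 N
  have hfin : Finite (SL(2, ℤ) ⧸ Gamma0 N) := inferInstance
  exact card_parabolic_elliptic_le (Gamma0 N) A ModularGroup.S ModularGroup.T
    (ModularGroup.S * ModularGroup.T) rfl closure_S_ST parSet ellSet parSet_conj ellSet_conj
    (by rw [S_mul_S_eq_neg_one]; exact neg_one_mem_parSet)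
    (by rw [ST_cube_eq_neg_one]; exact neg_one_mem_parSet)
    T_pow_mem_parSet S_mem_ellSet ST_mem_ellSet
    (fun q => by
      have h := neg_one_smul_coset N q
      rw [← S_mul_S_eq_neg_one, mul_smul] at h
      exact h)
    (fun q => by
      have h := neg_one_smul_coset N q
      rw [← ST_cube_eq_neg_one, mul_smul, mul_smul] at h
      exact h)
    (finrank ℂ (ModularCurve.Period.parabolicHoms ℂ (Gamma0 N) ℂ))
    (by
      rw [Fermat.Agent.H42.card_fixed_S, Fermat.Agent.H42.card_fixed_ST,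
        Fermat.Agent.H73.card_orbits_T, hidx, hrank])

end Fermat.Agent.H35
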